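import Fermat.Agent.WitteMorris.Rigid
import Mathlib.Analysis.Convex.Contractible
import Mathlib.Dynamics.Circle.RotationNumber.TranslationNumber
import Mathlib.Topology.Covering.AddCircle
import Mathlib.Topology.Homotopy.Lifting
import Mathlib.Topology.Instances.AddCircle.Real
import Mathlib.Topology.Order.IntermediateValue

/-!
# The homeomorphism groups of the line and of the circle are rigid

Orientation-preserving homeomorphisms of the circle lift to the line.  Lifts of commuting maps
commute, and lifts with translation number zero satisfy the elementary relations exactly, by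
conjugation invariance and additivity on commuting maps of the translation number.
-/

set_option autoImplicit false

noncomputable section

namespace FA.WitteMorris

open CircleDeg1Lift

/-- Degree-one homeomorphisms of the line. -/
abbrev Deg1 := CircleDeg1Liftˣ

/-- The circle. -/
abbrev Circ := AddCircle (1 : ℝ)

/-- The translation number of a lift. -/
def rot (F : Deg1) : ℝ := translationNumber (F : CircleDeg1Lift)

/-- The integer translations. -/
def shift (j : ℤ) : Deg1 := translate (Multiplicative.ofAdd (j : ℝ))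

theorem shift_apply (j : ℤ) (x : ℝ) : shift j x = j + x := rfl

theorem shift_zero : shift 0 = 1 := by simp [shift]

theorem shift_comm (j : ℤ) (F : Deg1) : Commute (shift j) F :=
  Units.ext (CircleDeg1Lift.ext fun x => ((F : CircleDeg1Lift).map_int_add j x).symm)

theorem rot_shift (j : ℤ) : rot (shift j) = j := translationNumber_translate _

theorem rot_mul {F G : Deg1} (h : Commute F G) : rot (F * G) = rot F + rot G := by
  rw [rot, Units.val_mul]
  exact translationNumber_mul_of_commute h.units_val

theorem rot_conj (F G : Deg1) : rot (F * G * F⁻¹) = rot G := by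
  rw [rot, Units.val_mul, Units.val_mul]
  exact translationNumber_conj_eq F _

theorem rot_zpow (F : Deg1) (k : ℤ) : rot (F ^ k) = k * rot F := translationNumber_zpow F k

theorem coe_eq_coe {x y : ℝ} : (x : Circ) = y ↔ ∃ j : ℤ, y = x + j := by
  rw [QuotientAddGroup.eq, AddSubgroup.mem_zmultiples_iff]
  exact ⟨fun ⟨j, hj⟩ => ⟨j, by simp at hj; linarith⟩, fun ⟨j, hj⟩ => ⟨j, by simp; linarith⟩⟩

/-- `F` is a lift of `h`. -/
def IsLift (h : Circ ≃ₜ Circ) (F : Deg1) : Prop := ∀ x : ℝ, h (x : Circ) = (F x : ℝ)

theorem isLift_one : IsLift 1 1 := fun _ => rfl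

theorem IsLift.mul {h h' : Circ ≃ₜ Circ} {F F' : Deg1} (hF : IsLift h F) (hF' : IsLift h' F') :
    IsLift (h * h') (F * F') := fun x => by
  rw [Homeomorph.mul_apply, hF' x, hF]
  rfl

theorem IsLift.inv {h : Circ ≃ₜ Circ} {F : Deg1} (hF : IsLift h F) : IsLift h⁻¹ F⁻¹ := fun x => by
  rw [Homeomorph.inv_apply, Homeomorph.symm_apply_eq, hF, units_apply_inv_apply]

theorem IsLift.zpow {h : Circ ≃ₜ Circ} {F : Deg1} (hF : IsLift h F) : ∀ k : ℤ,
    IsLift (h ^ k) (F ^ k) := by
  intro k
  induction k with
  | zero => simpa using isLift_one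
  | succ k ih => simpa [zpow_add_one] using ih.mul hF
  | pred k ih => simpa [zpow_sub_one] using ih.mul hF.inv

theorem continuous_deg1 (F : Deg1) : Continuous fun x => F x :=
  (toOrderIso F).continuous

/-- Two continuous lifts of one map differ by an integer. -/
theorem lift_sub_const {F G : ℝ → ℝ} (hF : Continuous F) (hG : Continuous G)
    (h : ∀ x, (F x : Circ) = G x) : ∃ j : ℤ, ∀ x, G x = F x + j := by
  obtain ⟨j, hj⟩ := coe_eq_coe.1 (h 0)
  refine ⟨j, fun x => ?_⟩
  have := (AddCircle.isCoveringMap_coe (1 : ℝ)).eq_of_comp_eq (g₁ := fun x => F x + (j : ℝ))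
    (g₂ := G) (hF.add continuous_const) hG (funext fun y => ?_) 0 hj.symm
  · exact (congrFun this x).symm
  · exact ((coe_eq_coe.2 ⟨j, rfl⟩).symm.trans (h y))

theorem IsLift.eq_shift_mul {h : Circ ≃ₜ Circ} {F G : Deg1} (hF : IsLift h F) (hG : IsLift h G) :
    ∃ j : ℤ, G = shift j * F := by
  obtain ⟨j, hj⟩ := lift_sub_const (continuous_deg1 F) (continuous_deg1 G)
    fun x => (hF x).symm.trans (hG x)
  exact ⟨j, Units.ext (CircleDeg1Lift.ext fun x => (hj x).trans (add_comm _ _))⟩

theorem IsLift.eq_one {h : Circ ≃ₜ Circ} (hh : IsLift h 1) : h = 1 :=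
  Homeomorph.ext fun y => QuotientAddGroup.induction_on y fun x => hh x

/-- Lifts of commuting maps commute. -/
theorem IsLift.commute {h h' : Circ ≃ₜ Circ} {F F' : Deg1} (hF : IsLift h F) (hF' : IsLift h' F')
    (hc : Commute h h') : Commute F F' := by
  obtain ⟨j, hj⟩ := hF'.eq_shift_mul
    (show IsLift h' (F * F' * F⁻¹) by
      have := (hF.mul hF').mul hF.inv
      rwa [hc.eq, mul_inv_cancel_right] at this)
  have h1 := rot_conj F F'
  rw [hj, rot_mul (shift_comm j _), rot_shift, add_eq_right, Int.cast_eq_zero] at h1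
  rw [h1, shift_zero, one_mul, mul_inv_eq_iff_eq_mul] at hj
  exact hj

/-- The orientation-preserving homeomorphisms. -/
def liftable : Subgroup (Circ ≃ₜ Circ) where
  carrier := {h | ∃ F, IsLift h F}
  mul_mem' := fun ⟨F, hF⟩ ⟨G, hG⟩ => ⟨F * G, hF.mul hG⟩
  one_mem' := ⟨1, isLift_one⟩
  inv_mem' := fun ⟨F, hF⟩ => ⟨F⁻¹, hF.inv⟩

theorem toOrderIso_injective : Function.Injective (toOrderIso : Deg1 → ℝ ≃o ℝ) := fun _ _ h =>
  Units.ext (CircleDeg1Lift.ext fun x => congrArg (fun e : ℝ ≃o ℝ => e x) h)

theorem rigid_liftable : Rigid liftable := by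
  intro n hn m hm e₀ he₀
  have he : Rel m fun a b h s => (e₀ a b h s : Circ ≃ₜ Circ) := he₀.map liftable.subtype
  set e : ∀ a b : Fin n, a ≠ b → ℤ → (Circ ≃ₜ Circ) := fun a b h s => e₀ a b h s with hedef
  choose F hF using fun a b h => (e₀ a b h 1).2
  -- lifts of translation number zero
  have hZ : ∀ a c (hac : a ≠ c), ∃ Z : Deg1, IsLift (e a c hac m) Z ∧ rot Z = 0 := by
    intro a c hac
    obtain ⟨b, hba, hbc⟩ : ∃ b, b ≠ a ∧ b ≠ c := Fin.exists_ne_and_ne_of_two_lt a c hn
    set A := F a b hba.symm
    set B := F b c hbc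
    set C := F a c hac ^ m
    have hC : IsLift (e a c hac m) C := by
      have e1 : e a c hac m = e a c hac 1 ^ m := by
        rw [← he.apply_mul a c hac m 1, mul_one]
      rw [e1]
      exact (hF a c hac).zpow m
    have hrel : e a b hba.symm 1 * e b c hbc 1 = e b c hbc 1 * e a b hba.symm 1 * e a c hac m := by
      have := he.rel a b c hba.symm hbc hac 1 1
      rwa [mul_one, mul_one] at this
    have hAC : Commute A C :=
      IsLift.commute (hF a b _) hC (he.row a b c hba.symm hac 1 m)
    have hBC : Commute B C :=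
      IsLift.commute (hF b c _) hC (he.column b a c hbc hac 1 m)
    obtain ⟨j, hj⟩ := ((hF b c hbc).mul ((hF a b hba.symm).mul hC)).eq_shift_mul
      (show IsLift (e b c hbc 1 * (e a b hba.symm 1 * e a c hac m)) (A * B) by
        have := (hF a b hba.symm).mul (hF b c hbc)
        rw [← mul_assoc, ← hrel]
        exact this)
    refine ⟨shift j * C, fun x => ?_, ?_⟩
    · rw [hC x, Units.val_mul, coe_mul, Function.comp_apply, coe_eq_coe]
      exact ⟨j, add_comm _ _⟩
    · have hconj : A * B * A⁻¹ = B * (shift j * C) := by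
        calc A * B * A⁻¹ = shift j * (B * (A * C)) * A⁻¹ := by rw [hj]
          _ = shift j * (B * C) := by
            rw [hAC.eq]
            group
          _ = B * (shift j * C) := by rw [← mul_assoc, (shift_comm j B).eq, mul_assoc]
      have h1 := rot_conj A B
      rw [hconj, rot_mul ((shift_comm j B).symm.mul_right hBC)] at h1
      linarith
  choose Z hZl hZ0 using hZ
  have hfam : HeisenbergFamily Z (m * m) := by
    refine ⟨fun a b c hb hc => (hZl a b hb).commute (hZl a c hc) (he.row a b c hb hc m m),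
      fun a b c ha hb => (hZl a c ha).commute (hZl b c hb) (he.column a b c ha hb m m),
      fun a b c hab hbc hac => ?_⟩
    have hAC : Commute (Z a b hab) (Z a c hac) :=
      (hZl a b hab).commute (hZl a c hac) (he.row a b c hab hac m m)
    have hBC : Commute (Z b c hbc) (Z a c hac) :=
      (hZl b c hbc).commute (hZl a c hac) (he.column b a c hbc hac m m)
    obtain ⟨j, hj⟩ := (((hZl b c hbc).mul (hZl a b hab)).mul
      ((hZl a c hac).zpow (m * m))).eq_shift_mul
      (show IsLift _ (Z a b hab * Z b c hbc) by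
        have := (hZl a b hab).mul (hZl b c hbc)
        rw [← he.apply_mul, show m * m * m = m * m * m from rfl]
        rwa [he.rel a b c hab hbc hac m m] at this)
    have hconj : Z a b hab * Z b c hbc * (Z a b hab)⁻¹ =
        Z b c hbc * (shift j * Z a c hac ^ (m * m)) := by
      rw [hj, mul_assoc (Z b c hbc), (hAC.zpow_right _).eq, ← mul_assoc (Z b c hbc),
        ← mul_assoc, mul_inv_cancel_right, ← mul_assoc, (shift_comm j _).eq, mul_assoc]
    have h1 := rot_conj (Z a b hab) (Z b c hbc)
    rw [hconj, rot_mul ((shift_comm j _).symm.mul_right (hBC.zpow_right _)),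
      rot_mul (shift_comm j _), rot_shift, rot_zpow, hZ0, hZ0, mul_zero, zero_add, add_zero,
      Int.cast_eq_zero] at h1
    rw [h1, shift_zero, one_mul] at hj
    exact hj
  obtain ⟨a, b, h, h1⟩ := ((hfam.map toOrderIso).exists_eq_one_orderIso hn (by simp [hm]))
  refine ⟨a, b, h, m, hm, Subtype.ext ?_⟩
  have := hZl a b h
  rw [toOrderIso_injective (h1.trans (map_one toOrderIso).symm)] at this
  exact this.eq_one

/-- Squares of homeomorphisms of the circle preserve the orientation. -/
theorem sq_mem_liftable (h : Circ ≃ₜ Circ) : h * h ∈ liftable := by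
  have key : ∀ g : Circ ≃ₜ Circ, ∃ F : C(ℝ, ℝ), ∀ x : ℝ, g (x : Circ) = (F x : ℝ) := by
    intro g
    obtain ⟨y, hy⟩ := QuotientAddGroup.mk_surjective (g ((0 : ℝ) : Circ))
    obtain ⟨F, ⟨-, hF⟩, -⟩ := (AddCircle.isCoveringMap_coe (1 : ℝ)).existsUnique_continuousMap_lifts
      ⟨fun x : ℝ => g (x : Circ), g.continuous.comp (AddCircle.continuous_mk' 1)⟩ 0 y hy
    exact ⟨F, fun x => (congrFun hF x).symm⟩
  obtain ⟨F, hF⟩ := key h
  obtain ⟨G, hG⟩ := key h.symm
  obtain ⟨i, hi⟩ := lift_sub_const (F := fun x => x) (G := fun x => G (F x)) continuous_id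
    (G.continuous.comp F.continuous) fun x => by
      rw [← hG, ← hF, Homeomorph.symm_apply_apply]
  obtain ⟨i', hi'⟩ := lift_sub_const (F := fun x => x) (G := fun x => F (G x)) continuous_id
    (F.continuous.comp G.continuous) fun x => by
      rw [← hF, ← hG, Homeomorph.apply_symm_apply]
  have hinj : Function.Injective F := fun x y hxy => by
    have := congrArg G hxy
    rw [hi, hi] at this
    simpa using this
  have hsurj : Function.Surjective F := fun y => ⟨G (y - i'), by rw [hi']; ring⟩
  have hsm : StrictMono fun x => F (F x) := by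
    rcases F.continuous.strictMono_of_inj hinj with hs | hs
    · exact hs.comp hs
    · exact hs.comp hs
  have hlift : ∀ x : ℝ, (h * h) (x : Circ) = (F (F x) : ℝ) := fun x => by
    rw [Homeomorph.mul_apply, hF, hF]
  obtain ⟨d, hd⟩ := lift_sub_const (F := fun x => F (F x)) (G := fun x => F (F (x + 1)))
    (F.continuous.comp F.continuous)
    ((F.continuous.comp F.continuous).comp (continuous_id.add continuous_const)) fun x => by
      rw [← hlift, ← hlift, AddCircle.coe_add_period]
  have hd1 : d = 1 := by
    have h0 : (0 : ℝ) < d := by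
      have := hsm (show (0 : ℝ) < 0 + 1 by norm_num)
      simp only [hd] at this
      linarith
    by_contra hne
    have h2 : (2 : ℝ) ≤ d := by
      have : (0 : ℤ) < d := by exact_mod_cast h0
      exact_mod_cast (by omega : (2 : ℤ) ≤ d)
    obtain ⟨y, hy⟩ : ∃ y, F (F y) = F (F 0) + 1 := (hsurj.comp hsurj) _
    have hy0 : 0 < y := hsm.lt_iff_lt.1 (show F (F 0) < F (F y) by linarith)
    have hy1 : y < 1 := hsm.lt_iff_lt.1 (show F (F y) < F (F 1) by
      have := hd 0
      simp only [zero_add] at this
      linarith)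
    have he : ((0 : ℝ) : Circ) = (y : ℝ) := (h * h).injective (by
      rw [hlift, hlift, coe_eq_coe]
      exact ⟨1, by rw [hy]; simp⟩)
    obtain ⟨k, hk⟩ := coe_eq_coe.1 he
    rw [zero_add] at hk
    rw [hk] at hy0 hy1
    have : (0 : ℤ) < k ∧ k < 1 := ⟨by exact_mod_cast hy0, by exact_mod_cast hy1⟩
    omega
  let f : CircleDeg1Lift :=
    ⟨⟨fun x => F (F x), hsm.monotone⟩, fun x => by
      show F (F (x + 1)) = F (F x) + 1
      rw [hd x, hd1, Int.cast_one]⟩
  obtain ⟨u, hu⟩ := isUnit_iff_bijective.2
    (show Function.Bijective f from ⟨hsm.injective, hsurj.comp hsurj⟩)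
  exact ⟨u, fun x => by rw [hlift, hu]; rfl⟩

/-- **The group of homeomorphisms of the circle is rigid.** -/
theorem rigid_circle : Rigid (Circ ≃ₜ Circ) := rigid_liftable.of_sq sq_mem_liftable

/-- **The group of homeomorphisms of the line is rigid.** -/
theorem rigid_line : Rigid (ℝ ≃ₜ ℝ) := by
  let L : Subgroup (ℝ ≃ₜ ℝ) :=
    { carrier := {f | StrictMono f}
      mul_mem' := fun {f g} hf hg => hf.comp hg
      one_mem' := strictMono_id
      inv_mem' := fun {f} hf x y hxy => by
        refine hf.lt_iff_lt.1 ?_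
        simpa using hxy }
  let t : L →* ℝ ≃o ℝ :=
    MonoidHom.mk' (fun f => StrictMono.orderIsoOfSurjective _ f.2 f.1.surjective)
      fun f g => OrderIso.ext rfl
  refine ((rigid_orderIso ℝ).of_injective (f := t) fun f g h => ?_).of_sq fun f => ?_
  · exact Subtype.ext (Homeomorph.ext fun x => congrArg (fun e : ℝ ≃o ℝ => e x) h)
  · rcases f.continuous.strictMono_of_inj f.injective with hs | hs
    · exact hs.comp hs
    · exact hs.comp hs

end FA.WitteMorris

end
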