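import Mathlib.Algebra.Group.Commute.Hom
import Mathlib.Algebra.Order.Group.Defs
import Mathlib.Algebra.Order.Monoid.Unbundled.Pow
import Mathlib.Algebra.Order.Group.End
import Mathlib.Data.Fintype.Lattice
import Mathlib.Data.Fintype.Prod
import Mathlib.Order.PiLex
import Mathlib.SetTheory.Cardinal.Order
import Mathlib.Tactic.Group
import Mathlib.Tactic.Ring

/-!
# Heisenberg relations in left-ordered groups

If `b` commutes with `a` and `c` and a non-zero power of `b` is their commutator, then the size of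
`b²` is at most the size of `a` or of `c`.  So a family indexed by the pairs of distinct indices
with the relations of the elementary matrices contains the identity (Witte Morris).
-/

set_option autoImplicit false

noncomputable section

namespace FA.WitteMorris

variable {G : Type*} [Group G]

theorem pow_mul_swap {a c z : G} (ha : Commute a z) (hc : Commute c z) (h : c * a = a * c * z) :
    ∀ i j : ℕ, c ^ i * a ^ j = a ^ j * c ^ i * z ^ (i * j) := by
  have h1 : ∀ j, c * a ^ j = a ^ j * c * z ^ j := by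
    intro j
    induction j with
    | zero => simp
    | succ j ih =>
      rw [pow_succ, ← mul_assoc, ih, mul_assoc (a ^ j * c), ← (ha.pow_right j).eq, ← mul_assoc,
        mul_assoc (a ^ j) c a, h, pow_succ' z]
      group
  intro i j
  induction i with
  | zero => simp
  | succ i ih =>
    rw [pow_succ', mul_assoc, ih, ← mul_assoc, ← mul_assoc, h1, mul_assoc (a ^ j * c),
      ← (hc.pow_pow i j).eq, Nat.succ_mul, Nat.add_comm, pow_add]
    group

/-- The relations between elementary matrices of a fixed level. -/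
structure HeisenbergFamily {n : ℕ} (e : ∀ a b : Fin n, a ≠ b → G) (k : ℤ) : Prop where
  row : ∀ a b c (hb : a ≠ b) (hc : a ≠ c), Commute (e a b hb) (e a c hc)
  column : ∀ a b c (ha : a ≠ c) (hb : b ≠ c), Commute (e a c ha) (e b c hb)
  rel : ∀ a b c (hab : a ≠ b) (hbc : b ≠ c) (hac : a ≠ c),
    e a b hab * e b c hbc = e b c hbc * e a b hab * e a c hac ^ k

theorem HeisenbergFamily.map {K : Type*} [Group K] {n : ℕ} {e : ∀ a b : Fin n, a ≠ b → G}
    {k : ℤ} (he : HeisenbergFamily e k) (f : G →* K) :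
    HeisenbergFamily (fun a b h => f (e a b h)) k where
  row a b c hb hc := (he.row a b c hb hc).map f
  column a b c ha hb := (he.column a b c ha hb).map f
  rel a b c hab hbc hac := by simp only [← map_mul, ← map_zpow, he.rel a b c hab hbc hac]

section LeftOrder

variable [LinearOrder G] [MulLeftMono G]

/-- The size of an element of a left-ordered group. -/
def size (a : G) : G := max a a⁻¹

theorem one_le_size (a : G) : 1 ≤ size a :=
  (le_total 1 a).elim (fun h => h.trans (le_max_left _ _))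
    fun h => (Left.one_le_inv_iff.2 h).trans (le_max_right _ _)

omit [MulLeftMono G] in
theorem size_eq (a : G) : size a = a ∨ size a = a⁻¹ := max_choice _ _

theorem one_lt_size {a : G} (ha : a ≠ 1) : 1 < size a :=
  (one_le_size a).lt_of_ne fun h => ha (by rcases size_eq a with e | e <;> simp_all)

/-- Two positive elements are not both bounded by a power of their central positive commutator. -/
theorem lt_pow_or {a c z : G} (ha : Commute a z) (hc : Commute c z) (hz : 1 < z)
    (h : c * a = a * c * z) (ha1 : 1 ≤ a) (hc1 : 1 ≤ c) (p : ℕ) :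
    z ^ p < a ∨ z ^ p < c := by
  by_contra! hle
  obtain ⟨hle1, hle2⟩ := hle
  set N := 2 * p + 1 with hN
  have hpos : 1 ≤ a ^ N * c ^ N * (a⁻¹ * z ^ p) ^ N * (c⁻¹ * z ^ p) ^ N :=
    Left.one_le_mul (Left.one_le_mul (Left.one_le_mul (Left.one_le_pow_of_le ha1 N)
      (Left.one_le_pow_of_le hc1 N)) (Left.one_le_pow_of_le (le_inv_mul_iff_mul_le.2
        (by rwa [mul_one])) N))
      (Left.one_le_pow_of_le (le_inv_mul_iff_mul_le.2 (by rwa [mul_one])) N)
  have hval : a ^ N * c ^ N * (a⁻¹ * z ^ p) ^ N * (c⁻¹ * z ^ p) ^ N = (z ^ N)⁻¹ := by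
    rw [(ha.inv_left.pow_right p).mul_pow, (hc.inv_left.pow_right p).mul_pow, ← pow_mul,
      inv_pow, inv_pow, eq_inv_iff_mul_eq_one]
    have e1 := pow_mul_swap ha hc h N N
    have c1 : Commute (c ^ N) (z ^ (p * N)) := hc.pow_pow _ _
    calc a ^ N * c ^ N * ((a ^ N)⁻¹ * z ^ (p * N)) * ((c ^ N)⁻¹ * z ^ (p * N)) * z ^ N
        = a ^ N * c ^ N * (a ^ N)⁻¹ * (z ^ (p * N) * (c ^ N)⁻¹) * z ^ (p * N) * z ^ N := by group
      _ = a ^ N * c ^ N * (c ^ N * a ^ N)⁻¹ * (z ^ (p * N) * z ^ (p * N) * z ^ N) := by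
        rw [← c1.inv_left.eq]
        group
      _ = 1 := by
        have e2 : (p * N + p * N) + N = N * N := by rw [hN]; ring
        have c2 : Commute (z ^ (N * N)) (a ^ N * c ^ N) :=
          ((ha.pow_pow _ _).mul_left (hc.pow_pow _ _)).symm
        rw [← pow_add, ← pow_add, e2, e1, mul_inv_rev, ← mul_assoc, ← c2.inv_left.eq]
        group
  rw [hval] at hpos
  have := Left.one_le_inv_iff.1 hpos
  exact absurd this (not_le.2 (one_lt_pow' hz (by omega)))

omit [LinearOrder G] [MulLeftMono G] in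
theorem rel_inv_left {a c b : G} (hab : Commute a b) {k : ℤ} (h : c * a = a * c * b ^ k) :
    c * a⁻¹ = a⁻¹ * c * b ^ (-k) := by
  calc c * a⁻¹ = a⁻¹ * (a * c * b ^ k) * (b ^ (-k) * a⁻¹) := by group
    _ = a⁻¹ * (c * a) * (a⁻¹ * b ^ (-k)) := by rw [← h, (hab.inv_left.zpow_right (-k)).eq]
    _ = a⁻¹ * c * b ^ (-k) := by group

omit [LinearOrder G] [MulLeftMono G] in
theorem rel_inv_right {a c b : G} (hcb : Commute c b) {k : ℤ} (h : c * a = a * c * b ^ k) :
    c⁻¹ * a = a * c⁻¹ * b ^ (-k) := by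
  calc c⁻¹ * a = c⁻¹ * (a * c * b ^ k) * (b ^ (-k) * c⁻¹) := by group
    _ = c⁻¹ * (c * a) * (c⁻¹ * b ^ (-k)) := by rw [← h, (hcb.inv_left.zpow_right (-k)).eq]
    _ = a * c⁻¹ * b ^ (-k) := by group

/-- **A Heisenberg relation makes the centre small.** -/
theorem sq_size_le {a b c : G} (hab : Commute a b) (hcb : Commute c b) (hb : b ≠ 1) {k : ℤ}
    (hk : k ≠ 0) (h : c * a = a * c * b ^ k) :
    size b ^ 2 ≤ size a ∨ size b ^ 2 ≤ size c := by
  obtain ⟨l, hl, hal, hcl, hrel⟩ : ∃ l : ℤ, l ≠ 0 ∧ Commute (size a) (size b) ∧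
      Commute (size c) (size b) ∧ size c * size a = size a * size c * size b ^ l := by
    have hB : ∀ {x : G}, Commute x b → Commute x (size b) := fun hx => by
      rcases size_eq b with e | e <;> rw [e]
      exacts [hx, hx.inv_right]
    obtain ⟨k₁, hk₁, hab₁, h₁⟩ : ∃ l : ℤ, l ≠ 0 ∧ Commute (size a) b ∧
        c * size a = size a * c * b ^ l := by
      rcases size_eq a with e | e <;> rw [e]
      exacts [⟨k, hk, hab, h⟩, ⟨-k, neg_ne_zero.2 hk, hab.inv_left, rel_inv_left hab h⟩]
    obtain ⟨k₂, hk₂, hcb₂, h₂⟩ : ∃ l : ℤ, l ≠ 0 ∧ Commute (size c) b ∧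
        size c * size a = size a * size c * b ^ l := by
      rcases size_eq c with e | e <;> rw [e]
      exacts [⟨k₁, hk₁, hcb, h₁⟩, ⟨-k₁, neg_ne_zero.2 hk₁, hcb.inv_left, rel_inv_right hcb h₁⟩]
    rcases size_eq b with e | e
    · exact ⟨k₂, hk₂, hB hab₁, hB hcb₂, by rw [e]; exact h₂⟩
    · exact ⟨-k₂, neg_ne_zero.2 hk₂, hB hab₁, hB hcb₂, by rw [e, inv_zpow', neg_neg]; exact h₂⟩
  have hB1 : 1 < size b := one_lt_size hb
  have main : ∀ {x y : G} (i : ℕ), 0 < i → Commute x (size b) → Commute y (size b) →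
      y * x = x * y * size b ^ i → 1 ≤ x → 1 ≤ y → size b ^ 2 ≤ x ∨ size b ^ 2 ≤ y := by
    intro x y i hi hx hy hxy hx1 hy1
    have hle : size b ^ 2 ≤ (size b ^ i) ^ 2 := by
      rw [← pow_mul]
      exact pow_le_pow_right' hB1.le (by omega)
    exact (lt_pow_or (hx.pow_right i) (hy.pow_right i) (one_lt_pow' hB1 hi.ne') hxy
      hx1 hy1 2).imp (fun h => hle.trans h.le) fun h => hle.trans h.le
  obtain ⟨i, rfl | rfl⟩ := l.eq_nat_or_neg
  · rw [zpow_natCast] at hrel
    exact main i (by omega) hal hcl hrel (one_le_size a) (one_le_size c)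
  · refine (main i (by omega) hcl hal ?_ (one_le_size c) (one_le_size a)).symm
    rw [hrel, zpow_neg, zpow_natCast, inv_mul_cancel_right]

/-- **No family of Witte Morris type in a left-ordered group avoids the identity.** -/
theorem HeisenbergFamily.exists_eq_one {n : ℕ} (hn : 3 ≤ n)
    {e : ∀ a b : Fin n, a ≠ b → G} {k : ℤ} (hk : k ≠ 0) (he : HeisenbergFamily e k) :
    ∃ a b h, e a b h = 1 := by
  by_contra! hne
  have hne' : Nonempty {p : Fin n × Fin n // p.1 ≠ p.2} :=
    ⟨⟨(⟨0, by omega⟩, ⟨1, by omega⟩), by simp [Fin.ext_iff]⟩⟩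
  obtain ⟨⟨⟨a, c⟩, hac⟩, hmax⟩ :=
    Finite.exists_max fun p : {p : Fin n × Fin n // p.1 ≠ p.2} => size (e p.1.1 p.1.2 p.2)
  obtain ⟨b, hba, hbc⟩ : ∃ b, b ≠ a ∧ b ≠ c := Fin.exists_ne_and_ne_of_two_lt a c hn
  have hlt : size (e a c hac) < size (e a c hac) ^ 2 := by
    rw [pow_two]
    exact lt_mul_of_one_lt_right' _ (one_lt_size (hne a c hac))
  rcases sq_size_le (he.column b a c hbc hac) (he.row a b c hba.symm hac) (hne a c hac) hk
    (he.rel a b c hba.symm hbc hac) with h | h
  · exact absurd (h.trans (hmax ⟨(b, c), hbc⟩)) (not_le.2 hlt)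
  · exact absurd (h.trans (hmax ⟨(a, b), hba.symm⟩)) (not_le.2 hlt)

end LeftOrder

/-- A well-ordered copy of a type. -/
def Points (α : Type*) := α

instance (α : Type*) : LinearOrder (Points α) :=
  (open scoped Classical in linearOrderOfSTO (WellOrderingRel (α := α)) : LinearOrder α)

instance (α : Type*) : WellFoundedLT (Points α) where
  wf := (IsWellFounded.wf : WellFounded (WellOrderingRel (α := α)))

/-- **Groups of order automorphisms are left-orderable**, so the same holds there. -/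
theorem HeisenbergFamily.exists_eq_one_orderIso {α : Type*} [LinearOrder α] {n : ℕ} (hn : 3 ≤ n)
    {e : ∀ a b : Fin n, a ≠ b → (α ≃o α)} {k : ℤ} (hk : k ≠ 0) (he : HeisenbergFamily e k) :
    ∃ a b h, e a b h = 1 := by
  letI : LinearOrder (α ≃o α) :=
    LinearOrder.lift' (fun f : α ≃o α => toLex fun x : Points α => f x) fun f g h =>
      OrderIso.ext (congrArg ofLex h)
  have : MulLeftMono (α ≃o α) := ⟨fun h f g hfg => by
    rcases eq_or_lt_of_le hfg with rfl | hlt
    · exact le_rfl
    · obtain ⟨x, hx, hlt'⟩ := hlt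
      exact le_of_lt ⟨x, fun y hy => congrArg h (hx y hy), h.strictMono hlt'⟩⟩
  exact he.exists_eq_one hn hk

end FA.WitteMorris

end
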