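import Fermat.Agent.WitteMorris.Order
import Fermat.Agent.CongruenceSL.Normal

/-!
# Rigid target groups

A group is rigid if every family with the relations of the elementary matrices of some level kills
some element.  Homomorphisms from subgroups of finite index of `SL n ℤ`, `n ≥ 3`, to rigid groups
have kernels of finite index.
-/

set_option autoImplicit false

noncomputable section

namespace FA.WitteMorris

open Matrix FA.CongruenceSL

variable {H : Type*} [Group H] {n : ℕ}

/-- The relations of the elementary matrices of level `m`. -/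
structure Rel (m : ℤ) (e : ∀ a b : Fin n, a ≠ b → ℤ → H) : Prop where
  add : ∀ a b h s t, e a b h (s + t) = e a b h s * e a b h t
  row : ∀ a b c (hb : a ≠ b) (hc : a ≠ c) s t, Commute (e a b hb s) (e a c hc t)
  column : ∀ a b c (ha : a ≠ c) (hb : b ≠ c) s t, Commute (e a c ha s) (e b c hb t)
  rel : ∀ a b c (hab : a ≠ b) (hbc : b ≠ c) (hac : a ≠ c) s t,
    e a b hab s * e b c hbc t = e b c hbc t * e a b hab s * e a c hac (m * s * t)

namespace Rel

variable {m : ℤ} {e : ∀ a b : Fin n, a ≠ b → ℤ → H}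

theorem apply_mul (he : Rel m e) (a b : Fin n) (h : a ≠ b) (k s : ℤ) :
    e a b h (k * s) = e a b h s ^ k := by
  have := map_zpow (MonoidHom.mk' (fun x : Multiplicative ℤ => e a b h x.toAdd) fun x y =>
    he.add a b h x.toAdd y.toAdd) (Multiplicative.ofAdd s) k
  simpa using this

theorem map {K : Type*} [Group K] (he : Rel m e) (f : H →* K) :
    Rel m fun a b h s => f (e a b h s) where
  add a b h s t := by rw [← map_mul, he.add]
  row a b c hb hc s t := (he.row a b c hb hc s t).map f
  column a b c ha hb s t := (he.column a b c ha hb s t).map f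
  rel a b c hab hbc hac s t := by simp only [← map_mul, he.rel a b c hab hbc hac s t]

/-- The values at `1` form a family of Witte Morris type. -/
theorem heisenberg (he : Rel m e) : HeisenbergFamily (fun a b h => e a b h 1) m where
  row a b c hb hc := he.row a b c hb hc 1 1
  column a b c ha hb := he.column a b c ha hb 1 1
  rel a b c hab hbc hac := by
    rw [he.rel a b c hab hbc hac 1 1, ← he.apply_mul]
    simp only [mul_one]

/-- One trivial element spreads to all pairs. -/
theorem forall_eq_one (hn : 3 ≤ n) (hm : m ≠ 0) (he : Rel m e) {a b : Fin n} {h : a ≠ b}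
    {s : ℤ} (hs : s ≠ 0) (h1 : e a b h s = 1) :
    ∃ M : ℤ, M ≠ 0 ∧ ∀ p q hpq, ∀ t, e p q hpq (M * t) = 1 := by
  let P : Fin n → Fin n → ℤ → Prop := fun p q M => ∀ hpq t, e p q hpq (M * t) = 1
  have hP : P a b s := fun hpq t => by rw [mul_comm, he.apply_mul, h1, _root_.one_zpow]
  have right : ∀ {p q r : Fin n} {M : ℤ}, p ≠ q → q ≠ r → P p q M → P p r (m * M) := by
    intro p q r M hpq hqr hM hpr t
    have := he.rel p q r hpq hqr hpr (M * t) 1
    rw [hM, one_mul, mul_one, left_eq_mul, mul_one] at this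
    rwa [mul_assoc]
  have left : ∀ {p q r : Fin n} {M : ℤ}, r ≠ p → p ≠ q → P p q M → P r q (m * M) := by
    intro p q r M hrp hpq hM hrq t
    have := he.rel r p q hrp hpq hrq 1 (M * t)
    rw [hM, mul_one, one_mul, left_eq_mul, mul_one] at this
    rwa [mul_assoc]
  have up : ∀ {p q : Fin n} {M : ℤ}, P p q M → P p q (m * M) := fun hM hpq t => by
    rw [mul_comm m, mul_assoc]
    exact hM hpq _
  refine ⟨m * (m * (m * s)), by simp [hm, hs], fun p q hpq t => ?_⟩
  suffices P p q (m * (m * (m * s))) from this hpq t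
  by_cases hqa : q = a
  · subst hqa
    obtain ⟨c, hc, hcp⟩ : ∃ c, c ≠ q ∧ c ≠ p := Fin.exists_ne_and_ne_of_two_lt q p hn
    have h2 : P q c (m * s) := by
      by_cases hcb : c = b
      · subst hcb
        exact up hP
      · exact right h (Ne.symm hcb) hP
    exact right hcp.symm hc (left hpq hc.symm h2)
  · have h2 : P a q (m * s) := by
      by_cases hqb : q = b
      · subst hqb
        exact up hP
      · exact right h (Ne.symm hqb) hP
    by_cases hpa : p = a
    · subst hpa
      exact up (up h2)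
    · exact up (left hpa (Ne.symm hqa) h2)

end Rel

variable (H) in
/-- Every family of elementary relations kills something. -/
def Rigid : Prop :=
  ∀ n, 3 ≤ n → ∀ (m : ℤ), m ≠ 0 → ∀ e : ∀ a b : Fin n, a ≠ b → ℤ → H, Rel m e →
    ∃ a b h s, s ≠ 0 ∧ e a b h s = 1

theorem rigid_orderIso (α : Type*) [LinearOrder α] : Rigid (α ≃o α) := by
  intro n hn m hm e he
  obtain ⟨a, b, h, h1⟩ := he.heisenberg.exists_eq_one_orderIso hn hm
  exact ⟨a, b, h, 1, one_ne_zero, h1⟩

theorem rigid_leftOrder [LinearOrder H] [MulLeftMono H] : Rigid H := by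
  intro n hn m hm e he
  obtain ⟨a, b, h, h1⟩ := he.heisenberg.exists_eq_one hn hm
  exact ⟨a, b, h, 1, one_ne_zero, h1⟩

theorem Rigid.of_injective {K : Type*} [Group K] (hK : Rigid K) {f : H →* K}
    (hf : Function.Injective f) : Rigid H := by
  intro n hn m hm e he
  obtain ⟨a, b, h, s, hs, h1⟩ := hK n hn m hm _ (he.map f)
  exact ⟨a, b, h, s, hs, hf (h1.trans (map_one f).symm)⟩

/-- Rigidity passes up from a subgroup containing all squares. -/
theorem Rigid.of_sq {L : Subgroup H} (hL : Rigid L) (hsq : ∀ x : H, x * x ∈ L) : Rigid H := by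
  intro n hn m hm e he
  have hmem : ∀ a b h s, e a b h (2 * s) ∈ L := fun a b h s => by
    rw [two_mul, he.add]
    exact hsq _
  have he' : Rel (2 * m) fun a b h s => (⟨e a b h (2 * s), hmem a b h s⟩ : L) := by
    refine ⟨fun a b h s t => Subtype.ext ?_, fun a b c hb hc s t => Subtype.ext ?_,
      fun a b c ha hb s t => Subtype.ext ?_, fun a b c hab hbc hac s t => Subtype.ext ?_⟩
    · show e a b h (2 * (s + t)) = _
      rw [mul_add]
      exact he.add _ _ _ _ _
    · exact (he.row a b c hb hc _ _).eq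
    · exact (he.column a b c ha hb _ _).eq
    · refine (he.rel a b c hab hbc hac (2 * s) (2 * t)).trans ?_
      rw [show m * (2 * s) * (2 * t) = 2 * (2 * m * s * t) by ring]
      rfl
  obtain ⟨a, b, h, s, hs, h1⟩ := hL n hn (2 * m) (by simp [hm]) _ he'
  exact ⟨a, b, h, 2 * s, by simp [hs], congrArg Subtype.val h1⟩

/-- **Homomorphisms to rigid groups kill a subgroup of finite index.** -/
theorem finiteIndex_ker (hn : 3 ≤ n) (hH : Rigid H)
    (Γ : Subgroup (SpecialLinearGroup (Fin n) ℤ)) [Γ.FiniteIndex] (φ : Γ →* H) :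
    φ.ker.FiniteIndex := by
  set N := Γ.normalCore with hNdef
  set m : ℤ := (N.index : ℤ) with hmdef
  have hm : m ≠ 0 := by simpa [hmdef] using Subgroup.FiniteIndex.index_ne_zero (H := N)
  have hu : ∀ a b (h : a ≠ b) (s : ℤ), tv a b h (m * s) ∈ N := by
    intro a b h s
    rw [mul_comm, tv_mul_int]
    refine N.zpow_mem ?_ s
    rw [hmdef, show (N.index : ℤ) = (N.index : ℤ) * 1 by ring, tv_mul_int, zpow_natCast]
    exact N.pow_index_mem _
  set u : ∀ a b : Fin n, a ≠ b → ℤ → N := fun a b h s => ⟨tv a b h (m * s), hu a b h s⟩ with hu'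
  have hrel : Rel m u := by
    refine ⟨fun a b h s t => Subtype.ext ?_, fun a b c hb hc s t => Subtype.ext ?_,
      fun a b c ha hb s t => Subtype.ext ?_, fun a b c hab hbc hac s t => Subtype.ext ?_⟩
    · show tv a b h (m * (s + t)) = _
      rw [mul_add, tv_add]
      rfl
    · refine Subtype.ext ?_
      simp [hu', tv, transvection, mul_add, add_mul, single_mul_single_of_ne, hb.symm, hc.symm]
      abel
    · refine Subtype.ext ?_
      simp [hu', tv, transvection, mul_add, add_mul, single_mul_single_of_ne, ha.symm, hb.symm]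
      abel
    · show tv a b hab (m * s) * tv b c hbc (m * t) =
        tv b c hbc (m * t) * tv a b hab (m * s) * tv a c hac (m * (m * s * t))
      refine Subtype.ext ?_
      simp [tv, transvection, mul_add, add_mul, single_mul_single_same, single_mul_single_of_ne,
        hab.symm, hac.symm]
      rw [show m * (m * s * t) = m * s * (m * t) by ring]
      abel
  let ψ : SpecialLinearGroup (Fin n) ℤ → N →* H := fun g =>
    φ.comp ((Subgroup.inclusion Γ.normalCore_le).comp (MulAut.conjNormal g).toMonoidHom)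
  have hkill : ∀ g, ∃ M : ℤ, M ≠ 0 ∧ ∀ a b h t, ψ g (u a b h (M * t)) = 1 := fun g => by
    obtain ⟨a, b, h, s, hs, h1⟩ := hH n hn m hm _ (hrel.map (ψ g))
    exact (hrel.map (ψ g)).forall_eq_one hn hm hs h1
  choose M hM hkill using hkill
  have : Finite (SpecialLinearGroup (Fin n) ℤ ⧸ N) := Subgroup.finite_quotient_of_finiteIndex
  have := Fintype.ofFinite (SpecialLinearGroup (Fin n) ℤ ⧸ N)
  set T : ℤ := ∏ q : SpecialLinearGroup (Fin n) ℤ ⧸ N, M q.out with hT
  set K : Subgroup (SpecialLinearGroup (Fin n) ℤ) := φ.ker.map Γ.subtype with hK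
  have hdeep : ∀ a b (h : a ≠ b), tv a b h (m * T) ∈ K.normalCore := by
    intro a b h g
    set r := (g : SpecialLinearGroup (Fin n) ℤ ⧸ N).out with hr
    have hγ : g * r⁻¹ ∈ Γ := Γ.normalCore_le <| by
      have h1 : r⁻¹ * g ∈ N := QuotientGroup.eq.1 (QuotientGroup.out_eq' _)
      have := (Subgroup.normalCore_normal Γ).conj_mem _ h1 r
      rwa [mul_inv_cancel_left] at this
    obtain ⟨t, ht⟩ : M r ∣ T := Finset.dvd_prod_of_mem _ (Finset.mem_univ _)
    have h3 : ψ r (u a b h T) = 1 := by
      rw [ht]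
      exact hkill r a b h t
    have hin : r * tv a b h (m * T) * r⁻¹ ∈ Γ :=
      Γ.normalCore_le ((Subgroup.normalCore_normal Γ).conj_mem _ (hu a b h T) r)
    have h4 : φ (⟨r * tv a b h (m * T) * r⁻¹, hin⟩ : Γ) = 1 := h3
    refine Subgroup.mem_map.2 ⟨(⟨g * r⁻¹, hγ⟩ : Γ) * ⟨r * tv a b h (m * T) * r⁻¹, hin⟩ *
      (⟨g * r⁻¹, hγ⟩ : Γ)⁻¹, ?_, ?_⟩
    · rw [MonoidHom.mem_ker, map_mul, map_mul, h4, mul_one, map_inv, mul_inv_cancel]
    · simp only [Subgroup.coe_subtype, Subgroup.coe_mul, Subgroup.coe_inv]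
      group
  have hpos : 0 < (m * T).natAbs := Int.natAbs_pos.2 (mul_ne_zero hm
    (Finset.prod_ne_zero_iff.2 fun q _ => hM _))
  have hle : elem n (m * T).natAbs ≤ K.normalCore := elem_le fun a b h => by
    rcases (m * T).natAbs_eq with e | e
    · rw [← e]
      exact hdeep a b h
    · rw [show ((m * T).natAbs : ℤ) = -(m * T) by omega, tv_neg]
      exact K.normalCore.inv_mem (hdeep a b h)
  have := finiteIndex_elem hn hpos
  have : K.FiniteIndex := Subgroup.finiteIndex_of_le (hle.trans K.normalCore_le)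
  rw [← Subgroup.comap_map_eq_self_of_injective Γ.subtype_injective φ.ker]
  exact inferInstanceAs (K.subgroupOf Γ).FiniteIndex

theorem finite_range (hn : 3 ≤ n) (hH : Rigid H)
    (Γ : Subgroup (SpecialLinearGroup (Fin n) ℤ)) [Γ.FiniteIndex] (φ : Γ →* H) :
    Finite φ.range := by
  have := finiteIndex_ker hn hH Γ φ
  have : Finite (Γ ⧸ φ.ker) := Subgroup.finite_quotient_of_finiteIndex
  exact Finite.of_equiv _ (QuotientGroup.quotientKerEquivRange φ).toEquiv

end FA.WitteMorris

end
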